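import Mathlib

/-!
# S55 / G / REC, leaf N3 (helper967): the norm modulo a totally split prime

Core statement (`map_norm_eq_prod_of_injective`): let `S` be a finite free `R`-algebra with basis
`b` indexed by `ι`, `F` a domain, `f : R →+* F` and `φ : κ → (S →+* F)` a family of pairwise
distinct ring homomorphisms extending `f`, with `card κ = card ι`.  Then for every `x : S`

  `f (Algebra.norm R x) = ∏ k, φ k x`.

(Proof: Dedekind's independence of characters shows that the matrix `(φ k (b j))` is invertible,
and it conjugates the multiplication matrix of `x` to the diagonal matrix `(φ k x)`.)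

For a number field `K` and a prime `r` this says: if there are `[K:ℚ]` distinct ring
homomorphisms `𝓞 K →+* ZMod r` (i.e. `r` is totally split in `K`), then
`(Algebra.norm ℤ x : ZMod r) = ∏ k, φ k x`  (`norm_int_eq_prod`).
-/

set_option autoImplicit false

namespace Fermat.Agent.S55.G.Rec.H967

open Matrix

section Core

variable {R S F ι κ : Type*} [CommRing R] [CommRing S] [Algebra R S] [CommRing F] [IsDomain F]
  [Fintype ι] [DecidableEq ι] [Fintype κ]

/-- Dedekind independence: a family of pairwise distinct ring homomorphisms into a domain is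
linearly independent. -/
theorem eq_zero_of_sum_smul_ringHom_eq_zero (φ : κ → (S →+* F)) (hφ : Function.Injective φ)
    (g : κ → F) (hg : ∀ y : S, ∑ k, g k * φ k y = 0) : ∀ k, g k = 0 := by
  have hli : LinearIndependent F (fun k : κ => ((φ k : S →* F) : S → F)) := by
    have h0 := linearIndependent_monoidHom S F
    refine h0.comp (fun k : κ => ((φ k : S →+* F) : S →* F)) ?_
    intro k₁ k₂ h
    apply hφ
    ext y
    exact congrArg (fun m : S →* F => m y) h
  rw [Fintype.linearIndependent_iff] at hli
  apply hli g
  funext y
  simpa [Finset.sum_apply, Pi.smul_apply, smul_eq_mul] using hg y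

/-- The norm of `x` maps to the product of the values of `x` under a full family of pairwise
distinct ring homomorphisms into a domain. -/
theorem map_norm_eq_prod_of_injective (b : Module.Basis ι R S) (f : R →+* F)
    (φ : κ → (S →+* F)) (hφ : Function.Injective φ)
    (hcomp : ∀ k (a : R), φ k (algebraMap R S a) = f a)
    (hcard : Fintype.card κ = Fintype.card ι) (x : S) :
    f (Algebra.norm R x) = ∏ k, φ k x := by
  classical
  let e : κ ≃ ι := Fintype.equivOfCardEq hcard
  set M : Matrix ι ι R := Algebra.leftMulMatrix b x with hM
  set P : Matrix ι ι F := fun i j => φ (e.symm i) (b j) with hP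
  set D : Matrix ι ι F := Matrix.diagonal (fun i => φ (e.symm i) x) with hD
  -- every `φ k` is `f`-semilinear
  have hlin : ∀ (k : κ) (y : S), φ k y = ∑ j, f (b.repr y j) * φ k (b j) := by
    intro k y
    conv_lhs => rw [← b.sum_repr y]
    rw [map_sum]
    refine Finset.sum_congr rfl fun j _ => ?_
    rw [Algebra.smul_def, map_mul, hcomp]
  -- the conjugation identity
  have hconj : P * f.mapMatrix M = D * P := by
    ext i j
    rw [Matrix.mul_apply, hD, Matrix.diagonal_mul]
    have h1 : ∀ l, P i l * (f.mapMatrix M) l j = f (b.repr (x * b j) l) * φ (e.symm i) (b l) := by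
      intro l
      simp only [hP, hM, RingHom.mapMatrix_apply, Matrix.map_apply,
        Algebra.leftMulMatrix_eq_repr_mul]
      ring
    rw [Finset.sum_congr rfl fun l _ => h1 l, ← hlin, map_mul]
  -- `P` is invertible
  have hdet : P.det ≠ 0 := by
    intro h0
    obtain ⟨v, hv0, hv⟩ := Matrix.exists_vecMul_eq_zero_iff.mpr h0
    apply hv0
    have hvk : ∀ k : κ, v (e k) = 0 := by
      apply eq_zero_of_sum_smul_ringHom_eq_zero φ hφ (fun k => v (e k))
      intro y
      have hsum : ∀ j, ∑ i, v i * φ (e.symm i) (b j) = 0 := by
        intro j
        have := congrFun hv j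
        simpa [Matrix.vecMul, dotProduct, hP] using this
      calc ∑ k, v (e k) * φ k y
          = ∑ i, v i * φ (e.symm i) y := by
            rw [← Equiv.sum_comp e]
            simp
        _ = ∑ i, v i * ∑ j, f (b.repr y j) * φ (e.symm i) (b j) := by
            refine Finset.sum_congr rfl fun i _ => ?_
            rw [← hlin]
        _ = ∑ j, f (b.repr y j) * ∑ i, v i * φ (e.symm i) (b j) := by
            simp_rw [Finset.mul_sum]
            rw [Finset.sum_comm]
            refine Finset.sum_congr rfl fun j _ => Finset.sum_congr rfl fun i _ => ?_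
            ring
        _ = 0 := by simp [hsum]
    funext i
    simpa using hvk (e.symm i)
  have hdet2 : P.det * (f.mapMatrix M).det = (∏ i, φ (e.symm i) x) * P.det := by
    rw [← Matrix.det_mul, hconj, Matrix.det_mul, hD, Matrix.det_diagonal]
  have hfin : (f.mapMatrix M).det = ∏ i, φ (e.symm i) x := by
    apply mul_left_cancel₀ hdet
    rw [hdet2, mul_comm]
  rw [Algebra.norm_eq_matrix_det b, RingHom.map_det, hfin]
  exact Equiv.prod_comp e.symm (fun k => φ k x)

end Core

end Fermat.Agent.S55.G.Rec.H967
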