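import Fermat.Agent.S55.G.Rec.H967.NormCore

/-!
# S55 / G / REC, leaf N3 (helper967): norm identity modulo a totally split prime

`K` a number field, `r` a prime, `P : κ → Ideal (𝓞 K)` a family of `[K:ℚ]` pairwise distinct
(prime) ideals of absolute norm `r` (i.e. `r` is totally split in `K` and `P` enumerates the
primes above `r`).  `resAt hr (P k) _ : 𝓞 K →+* ZMod r` is the reduction modulo `P k`.

* `intCast_norm_eq_prod`   : `(N_{K/ℚ} x : ZMod r) = ∏ k, φ k x` for any full family of distinct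
                             ring homomorphisms `φ k : 𝓞 K →+* ZMod r`.
* `intCast_norm_eq_prod_resAt` : the same for `φ k = resAt (P k)`.
* `natAbs_norm_eq_finprod`  : `|N x| = ∏ᶠ v, N(v)^{v(x)}`.
* `norm_identity_int`       : `∏ᶠ v, N(v)^{v(x)} = ± ∏ k, (x mod P k)` in `ZMod r`.
* `norm_identity_frac`      : cross-multiplied form for `b = x / y`.
-/

set_option autoImplicit false

namespace Fermat.Agent.S55.G.Rec.H967

open NumberField IsDedekindDomain

variable (K : Type*) [Field K] [NumberField K]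

/-- (N3, core) The norm of an algebraic integer modulo a prime `r`, given `[K:ℚ]` distinct ring
homomorphisms `𝓞 K →+* ZMod r`. -/
theorem intCast_norm_eq_prod {r : ℕ} [Fact r.Prime] {κ : Type*} [Fintype κ]
    (φ : κ → (𝓞 K →+* ZMod r)) (hφ : Function.Injective φ)
    (hcard : Fintype.card κ = Module.finrank ℚ K) (x : 𝓞 K) :
    ((Algebra.norm ℤ x : ℤ) : ZMod r) = ∏ k, φ k x := by
  classical
  have h := map_norm_eq_prod_of_injective (RingOfIntegers.basis K) (Int.castRingHom (ZMod r)) φ hφ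
    (fun k a => by simp) ?_ x
  · simpa using h
  · rw [hcard, ← RingOfIntegers.rank K, Module.finrank_eq_card_basis (RingOfIntegers.basis K)]

/-- (N3, field form) If `φ k : K →+* F` are `[K:ℚ]` pairwise distinct embeddings of `K` into a
field `F` of characteristic zero (e.g. `F = ℚ_[r]` for a totally split prime `r`), then
`N_{K/ℚ}(b) = ∏ k, φ k b` in `F`. -/
theorem ratCast_norm_eq_prod {F : Type*} [Field F] [CharZero F] {κ : Type*} [Fintype κ]
    (φ : κ → (K →+* F)) (hφ : Function.Injective φ)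
    (hcard : Fintype.card κ = Module.finrank ℚ K) (b : K) :
    ((Algebra.norm ℚ b : ℚ) : F) = ∏ k, φ k b := by
  classical
  have h := map_norm_eq_prod_of_injective (Module.finBasis ℚ K) (Rat.castHom F) φ hφ
    (fun k a => by simp) ?_ b
  · simpa using h
  · rw [hcard, Fintype.card_fin]

/-- (N3, `p`-adic integral form) If `φ k : 𝓞 K →+* F` are `[K:ℚ]` pairwise distinct ring
homomorphisms into a domain `F` (e.g. `F = ℤ_[r]`), then `N_{K/ℚ}(x) = ∏ k, φ k x` in `F`. -/
theorem intCast_norm_eq_prod_domain {F : Type*} [CommRing F] [IsDomain F] {κ : Type*} [Fintype κ]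
    (φ : κ → (𝓞 K →+* F)) (hφ : Function.Injective φ)
    (hcard : Fintype.card κ = Module.finrank ℚ K) (x : 𝓞 K) :
    ((Algebra.norm ℤ x : ℤ) : F) = ∏ k, φ k x := by
  classical
  have h := map_norm_eq_prod_of_injective (RingOfIntegers.basis K) (Int.castRingHom F) φ hφ
    (fun k a => by simp) ?_ x
  · simpa using h
  · rw [hcard, ← RingOfIntegers.rank K, Module.finrank_eq_card_basis (RingOfIntegers.basis K)]

section resAt

variable {K}

/-- The quotient by an ideal of prime absolute norm is finite. -/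
theorem finite_quotient_of_absNorm_eq {r : ℕ} (hr : r.Prime) (P : Ideal (𝓞 K))
    (hP : Ideal.absNorm P = r) : Finite (𝓞 K ⧸ P) := by
  rw [← Ideal.absNorm_ne_zero_iff, hP]
  exact hr.ne_zero

/-- Reduction modulo an ideal `P` of absolute norm `r` (`r` prime), with values in `ZMod r`. -/
noncomputable def resAt {r : ℕ} (hr : r.Prime) (P : Ideal (𝓞 K)) (hP : Ideal.absNorm P = r) :
    𝓞 K →+* ZMod r :=
  haveI := finite_quotient_of_absNorm_eq hr P hP
  letI := Fintype.ofFinite (𝓞 K ⧸ P)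
  ((ZMod.ringEquivOfPrime (𝓞 K ⧸ P) hr (by
    rw [← Nat.card_eq_fintype_card, ← hP, Ideal.absNorm_apply, Submodule.cardQuot_apply])).symm :
      (𝓞 K ⧸ P) →+* ZMod r).comp (Ideal.Quotient.mk P)

theorem resAt_eq_zero_iff {r : ℕ} (hr : r.Prime) (P : Ideal (𝓞 K)) (hP : Ideal.absNorm P = r)
    (x : 𝓞 K) : resAt hr P hP x = 0 ↔ x ∈ P := by
  unfold resAt
  simp only [RingHom.coe_comp, RingHom.coe_coe, Function.comp_apply,
    EmbeddingLike.map_eq_zero_iff]
  exact Ideal.Quotient.eq_zero_iff_mem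

theorem resAt_surjective {r : ℕ} (hr : r.Prime) (P : Ideal (𝓞 K)) (hP : Ideal.absNorm P = r) :
    Function.Surjective (resAt hr P hP) := by
  unfold resAt
  rw [RingHom.coe_comp]
  exact (RingEquiv.surjective _).comp Ideal.Quotient.mk_surjective

theorem resAt_injective_family {r : ℕ} (hr : r.Prime) {κ : Type*} (P : κ → Ideal (𝓞 K))
    (hP : ∀ k, Ideal.absNorm (P k) = r) (hinj : Function.Injective P) :
    Function.Injective (fun k => resAt hr (P k) (hP k)) := by
  intro k₁ k₂ h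
  apply hinj
  ext x
  rw [← resAt_eq_zero_iff hr (P k₁) (hP k₁), ← resAt_eq_zero_iff hr (P k₂) (hP k₂)]
  have := congrArg (fun f : 𝓞 K →+* ZMod r => f x) h
  simp only at this
  rw [this]

end resAt

/-- (N3, integral form, congruence for the norm) `r` totally split in `K`, `P` the primes over
`r`: `N_{K/ℚ}(x) ≡ ∏_k (x mod P_k)` modulo `r`. -/
theorem intCast_norm_eq_prod_resAt {r : ℕ} [hr : Fact r.Prime] {κ : Type*} [Fintype κ]
    (P : κ → Ideal (𝓞 K)) (hP : ∀ k, Ideal.absNorm (P k) = r) (hinj : Function.Injective P)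
    (hcard : Fintype.card κ = Module.finrank ℚ K) (x : 𝓞 K) :
    ((Algebra.norm ℤ x : ℤ) : ZMod r) = ∏ k, resAt hr.out (P k) (hP k) x :=
  intCast_norm_eq_prod K (fun k => resAt hr.out (P k) (hP k))
    (resAt_injective_family hr.out P hP hinj) hcard x

/-- `|N_{K/ℚ}(x)| = ∏_v N(v)^{v(x)}` for a nonzero algebraic integer `x`. -/
theorem natAbs_norm_eq_finprod (x : 𝓞 K) (hx : x ≠ 0) :
    (Algebra.norm ℤ x).natAbs = ∏ᶠ v : HeightOneSpectrum (𝓞 K),
      Ideal.absNorm v.asIdeal ^
        (Associates.mk v.asIdeal).count (Associates.mk (Ideal.span {x})).factors := by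
  have hI : Ideal.span {x} ≠ (0 : Ideal (𝓞 K)) := by
    simpa [Ideal.zero_eq_bot, Ideal.span_singleton_eq_bot] using hx
  rw [← Ideal.absNorm_span_singleton]
  conv_lhs => rw [← Ideal.finprod_heightOneSpectrum_factorization hI]
  rw [map_finprod _ (Ideal.hasFiniteMulSupport hI)]
  refine finprod_congr fun v => ?_
  simp [HeightOneSpectrum.maxPowDividing, map_pow]

/-- (N3, integral form) `∏_v N(v)^{v(x)} = ± ∏_k (x mod P_k)` in `ZMod r`.  (If `x ∉ P k` for
all `k`, the left hand side is a product over the places not above `r`.) -/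
theorem norm_identity_int {r : ℕ} [hr : Fact r.Prime] {κ : Type*} [Fintype κ]
    (P : κ → Ideal (𝓞 K)) (hP : ∀ k, Ideal.absNorm (P k) = r) (hinj : Function.Injective P)
    (hcard : Fintype.card κ = Module.finrank ℚ K) (x : 𝓞 K) (hx : x ≠ 0) :
    ∃ ε : ZMod r, (ε = 1 ∨ ε = -1) ∧
      (((∏ᶠ v : HeightOneSpectrum (𝓞 K), Ideal.absNorm v.asIdeal ^
        (Associates.mk v.asIdeal).count (Associates.mk (Ideal.span {x})).factors : ℕ)) : ZMod r) =
        ε * ∏ k, resAt hr.out (P k) (hP k) x := by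
  rw [← natAbs_norm_eq_finprod K x hx, ← intCast_norm_eq_prod_resAt K P hP hinj hcard x]
  rcases Int.natAbs_eq (Algebra.norm ℤ x) with h | h
  · refine ⟨1, Or.inl rfl, ?_⟩
    rw [one_mul]
    conv_rhs => rw [h]
    simp
  · refine ⟨-1, Or.inr rfl, ?_⟩
    conv_rhs => rw [h]
    simp

/-- (N3, fractional form, cross-multiplied) for `b = x / y`:
`(∏_v N(v)^{v(x)}) · ∏_k (y mod P_k) = ± (∏_v N(v)^{v(y)}) · ∏_k (x mod P_k)` in `ZMod r`. -/
theorem norm_identity_frac {r : ℕ} [hr : Fact r.Prime] {κ : Type*} [Fintype κ]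
    (P : κ → Ideal (𝓞 K)) (hP : ∀ k, Ideal.absNorm (P k) = r) (hinj : Function.Injective P)
    (hcard : Fintype.card κ = Module.finrank ℚ K) (x y : 𝓞 K) (hx : x ≠ 0) (hy : y ≠ 0) :
    ∃ ε : ZMod r, (ε = 1 ∨ ε = -1) ∧
      (((∏ᶠ v : HeightOneSpectrum (𝓞 K), Ideal.absNorm v.asIdeal ^
        (Associates.mk v.asIdeal).count (Associates.mk (Ideal.span {x})).factors : ℕ)) : ZMod r) *
          ∏ k, resAt hr.out (P k) (hP k) y =
        ε * ((((∏ᶠ v : HeightOneSpectrum (𝓞 K), Ideal.absNorm v.asIdeal ^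
          (Associates.mk v.asIdeal).count (Associates.mk (Ideal.span {y})).factors : ℕ)) :
            ZMod r) * ∏ k, resAt hr.out (P k) (hP k) x) := by
  obtain ⟨ε₁, hε₁, h₁⟩ := norm_identity_int K P hP hinj hcard x hx
  obtain ⟨ε₂, hε₂, h₂⟩ := norm_identity_int K P hP hinj hcard y hy
  refine ⟨ε₁ * ε₂, ?_, ?_⟩
  · rcases hε₁ with rfl | rfl <;> rcases hε₂ with rfl | rfl <;> simp
  · rw [h₁, h₂]
    have hsq : ε₂ * ε₂ = 1 := by rcases hε₂ with rfl | rfl <;> simp
    calc ε₁ * (∏ k, resAt hr.out (P k) (hP k) x) * ∏ k, resAt hr.out (P k) (hP k) y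
        = ε₁ * (ε₂ * ε₂) * ((∏ k, resAt hr.out (P k) (hP k) x) *
            ∏ k, resAt hr.out (P k) (hP k) y) := by rw [hsq]; ring
      _ = ε₁ * ε₂ * (ε₂ * (∏ k, resAt hr.out (P k) (hP k) y) *
            ∏ k, resAt hr.out (P k) (hP k) x) := by ring

end Fermat.Agent.S55.G.Rec.H967
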